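/-
Row 37 (S43).  helper28.  CORE'' : the `p`-TORSION form of helper41's CORE' (report #1614).

No Hecke operator `g`, no (F1)/(K1), no forms at level `H`, no lattices, no levels `p ^ k`:
`W = J_H[p]_m` only.  `g` is ANY linear map with `T g = c` (it exists as soon as `c W ⊆ T W`);
the price is (H5): `S - 1 = ∑ tᵢ aᵢ` with `tᵢ` nilpotent Hecke operators and `aᵢ` operators commuting
with `T` and `c` (Cayley-Hamilton + Boston-Lenstra-Ribet on the regular representation of the image
of `𝕋[G_ℚ]` in `End W`, `ρ̄` unramified at `q`).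
-/
import Mathlib

set_option autoImplicit false

namespace Fermat.Agent.S43.CoreP

open Module

section Nilp

variable {k W : Type*} [CommRing k] [AddCommGroup W] [Module k W]

/-- Nakayama for finitely many commuting nilpotent operators. -/
theorem eq_bot_of_le_iSup_map {ι : Type*} (s : Finset ι) (t : ι → End k W)
    (tt : ∀ i j, Commute (t i) (t j)) (tnil : ∀ i, IsNilpotent (t i)) (X : Submodule k W)
    (hst : ∀ i, X.map (t i) ≤ X)
    (hX : X ≤ ⨆ i ∈ s, X.map (t i)) : X = ⊥ := by
  classical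
  induction s using Finset.induction_on with
  | empty => simpa using hX
  | insert i₀ s hi₀ ih =>
    apply ih
    set Y : Submodule k W := ⨆ i ∈ s, X.map (t i) with hY
    have hX' : X ≤ X.map (t i₀) ⊔ Y := by
      rw [Finset.iSup_insert] at hX
      exact hX
    have hYst : Y.map (t i₀) ≤ Y := by
      rw [hY, Submodule.map_iSup]
      refine iSup_le fun i => ?_
      rw [Submodule.map_iSup]
      refine iSup_le fun hi => ?_
      refine le_trans ?_ (le_iSup₂ (f := fun i (_ : i ∈ s) => X.map (t i)) i hi)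
      rintro _ ⟨_, ⟨x, hx, rfl⟩, rfl⟩
      refine ⟨t i₀ x, hst i₀ ⟨x, hx, rfl⟩, ?_⟩
      rw [← End.mul_apply, ← End.mul_apply, (tt i i₀).eq]
    have key : ∀ n : ℕ, X ≤ X.map (t i₀ ^ n) ⊔ Y := by
      intro n
      induction n with
      | zero => 
        refine le_trans ?_ le_sup_left
        intro x hx
        exact ⟨x, hx, by simp⟩
      | succ n ihn =>
        refine hX'.trans (sup_le ?_ le_sup_right)
        refine (Submodule.map_mono ihn).trans ?_
        rw [Submodule.map_sup]
        refine sup_le ?_ (hYst.trans le_sup_right)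
        refine le_trans ?_ le_sup_left
        rintro _ ⟨_, ⟨x, hx, rfl⟩, rfl⟩
        exact ⟨x, hx, by rw [pow_succ', End.mul_apply]⟩
    obtain ⟨n, hn⟩ := tnil i₀
    have := key n
    rw [hn] at this
    refine this.trans (sup_le ?_ le_rfl)
    rintro _ ⟨x, -, rfl⟩
    simp

end Nilp

section Core

variable {k W : Type*} [CommRing k] [AddCommGroup W] [Module k W]

/-- **CORE''** (operator form). -/
theorem ker_eq_bot_of_core (κ : k) (hκ : IsUnit κ)
    (T Nm U c N A g : End k W) (hU : IsUnit U)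
    (TN : Commute T N) (cN : Commute c N) (UN : Commute U N)
    (NmU : Commute Nm U) (NmN : Commute Nm N)
    (H1 : ∀ x, T x = 0 → ∃ y, x = Nm y)
    (hg : T * g = c)
    (R1 : N * N = T * N) (R2 : N * A = T * A) (ID : T * A = c * N)
    (R3 : A * N = T * A + κ • (U * Nm * N))
    {ι : Type*} (s : Finset ι) (t a : ι → End k W)
    (tT : ∀ i, Commute (t i) T) (tN : ∀ i, Commute (t i) N)
    (tA : ∀ i, Commute (t i) A) (tt : ∀ i j, Commute (t i) (t j))
    (tnil : ∀ i, IsNilpotent (t i))
    (aT : ∀ i, Commute (a i) T) (ac : ∀ i, Commute (a i) c)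
    (H5 : N = ∑ i ∈ s, t i * a i)
    (E : ∀ x, T x = 0 → N x = 0 → ∃ z, T z = 0 ∧ x = N z) :
    ∀ x, T x = 0 → x = 0 := by
  classical
  -- the error terms
  set S : End k W := A - N * g with hS
  let e : End k W → End k W := fun b => g * b - b * g
  have he : ∀ b, Commute b T → Commute b c → T * e b = 0 := by
    intro b bT bc
    show T * (g * b - b * g) = 0
    rw [mul_sub, ← mul_assoc, hg, ← mul_assoc, ← bT.eq, mul_assoc, hg, bc.eq, sub_self]
  have hTNg : T * N * g = T * A := by
    rw [TN.eq, mul_assoc, hg, ← cN.eq, ID]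
  have hTS : T * S = 0 := by
    rw [hS, mul_sub, ← mul_assoc, hTNg, sub_self]
  have hNS : N * S = 0 := by
    rw [hS, mul_sub, ← mul_assoc, R1, R2, hTNg, sub_self]
  have hSt : ∀ i, S * t i = t i * S - N * e (t i) := by
    intro i
    show (A - N * g) * t i = t i * (A - N * g) - N * (g * t i - t i * g)
    rw [sub_mul, mul_sub, mul_sub, ← (tA i).eq, ← mul_assoc (t i) N g, (tN i).eq]
    simp only [mul_assoc]
    abel
  have heN : e N = ∑ i ∈ s, (t i * e (a i) + e (t i) * a i) := by
    show g * N - N * g = _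
    rw [H5, Finset.mul_sum, Finset.sum_mul, ← Finset.sum_sub_distrib]
    refine Finset.sum_congr rfl fun i _ => ?_
    show _ = t i * (g * a i - a i * g) + (g * t i - t i * g) * a i
    simp only [mul_sub, sub_mul, mul_assoc]
    abel
  have hSN : S * N = κ • (U * Nm * N) - N * e N := by
    show _ = _ - N * (g * N - N * g)
    rw [hS, sub_mul, R3, mul_sub, ← mul_assoc N N g, R1, hTNg]
    simp only [mul_assoc]
    abel
  have hSN' : S * N = ∑ i ∈ s, (t i * S - N * e (t i)) * a i := by
    conv_lhs => rw [H5]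
    rw [Finset.mul_sum]
    refine Finset.sum_congr rfl fun i _ => ?_
    rw [← mul_assoc, hSt]
  have key : κ • (U * Nm * N) = ∑ i ∈ s, t i * (S * a i + N * e (a i)) := by
    have h1 : κ • (U * Nm * N) = S * N + N * e N := by rw [hSN]; abel
    rw [h1, hSN', heN, Finset.mul_sum, ← Finset.sum_add_distrib]
    refine Finset.sum_congr rfl fun i _ => ?_
    rw [mul_add N, ← mul_assoc N (t i), ← (tN i).eq]
    simp only [mul_add, sub_mul, mul_assoc]
    abel
  -- the submodule `X = N (ker T)`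
  set X : Submodule k W := (LinearMap.ker T).map N with hXdef
  have hmemX : ∀ i v, (S * a i + N * e (a i)) v ∈ X := by
    intro i v
    rw [LinearMap.add_apply]
    refine X.add_mem ?_ ?_
    · obtain ⟨z, hz, hz'⟩ := E ((S * a i) v)
        (by rw [← End.mul_apply, ← mul_assoc, hTS, zero_mul]; rfl)
        (by rw [← End.mul_apply, ← mul_assoc, hNS, zero_mul]; rfl)
      rw [hz']
      exact ⟨z, hz, rfl⟩
    · rw [End.mul_apply]
      refine ⟨_, ?_, rfl⟩
      show T (e (a i) v) = 0
      rw [← End.mul_apply, he _ (aT i) (ac i)]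
      rfl
  have hst : ∀ i, X.map (t i) ≤ X := by
    rintro i _ ⟨_, ⟨z, hz, rfl⟩, rfl⟩
    refine ⟨t i z, ?_, ?_⟩
    · have hz' : T z = 0 := hz
      show T (t i z) = 0
      rw [← End.mul_apply, ← (tT i).eq, End.mul_apply, hz', map_zero]
    · rw [← End.mul_apply, ← End.mul_apply, (tN i).eq]
  have hXle : X ≤ ⨆ i ∈ s, X.map (t i) := by
    rintro _ ⟨z, hz, rfl⟩
    obtain ⟨y, rfl⟩ := H1 z hz
    obtain ⟨u, rfl⟩ := hU
    obtain ⟨κ', rfl⟩ := hκ
    -- `N T^(P-1) y = κ U T^(P-1) N (κ⁻¹ U⁻¹ y)`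
    have h1 : N ((Nm) y) =
        ((κ' : k) • ((u : End k W) * Nm * N))
          (((κ'⁻¹ : kˣ) : k) • ((u⁻¹ : (End k W)ˣ) : End k W) y) := by
      have hc1 : Commute (Nm * N) ((u⁻¹ : (End k W)ˣ) : End k W) := by
        have h2 : Commute (Nm * N) (u : End k W) :=
          NmU.mul_left UN.symm
        exact h2.units_inv_right
      rw [LinearMap.smul_apply, map_smul, smul_smul, Units.mul_inv, one_smul, mul_assoc,
        End.mul_apply, ← End.mul_apply (Nm * N), hc1.eq, End.mul_apply,
        ← End.mul_apply (u : End k W), Units.mul_inv, End.one_apply, End.mul_apply,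
        ← End.mul_apply, ← End.mul_apply, NmN.eq]
    rw [h1, key, LinearMap.sum_apply]
    refine Submodule.sum_mem _ fun i hi => ?_
    refine Submodule.mem_iSup_of_mem i (Submodule.mem_iSup_of_mem hi ?_)
    rw [End.mul_apply]
    exact ⟨_, hmemX i _, rfl⟩
  have hX0 : X = ⊥ := eq_bot_of_le_iSup_map s t tt tnil X hst hXle
  intro x hx
  have h1 : N x ∈ X := ⟨x, hx, rfl⟩
  rw [hX0, Submodule.mem_bot] at h1
  obtain ⟨z, hz, rfl⟩ := E x hx h1
  have h2 : N z ∈ X := ⟨z, hz, rfl⟩
  rwa [hX0, Submodule.mem_bot] at h2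

end Core


section Geom

variable {R : Type*} [Ring R]

/-- The norm element `∑_{k < P} (1 + T) ^ k`. -/
def Nm (T : R) (P : ℕ) : R := ∑ k ∈ Finset.range P, (1 + T) ^ k

theorem T_mul_Nm (T : R) (P : ℕ) (hδ : (1 + T) ^ P = 1) : T * Nm T P = 0 := by
  have h := mul_geom_sum (1 + T) P
  rwa [add_sub_cancel_left, hδ, sub_self] at h

theorem commute_Nm {T b : R} (h : Commute T b) (P : ℕ) : Commute (Nm T P) b :=
  Commute.sum_left _ _ _ fun _ _ => ((Commute.one_left b).add_left h).pow_left _

theorem sum_shift (T : R) (P : ℕ) (hδ : (1 + T) ^ P = 1) :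
    ∑ k ∈ Finset.range P, (1 + T) ^ (k + 1) = Nm T P := by
  have h1 := Finset.sum_range_succ (fun k => (1 + T) ^ k) P
  have h2 := Finset.sum_range_succ' (fun k => (1 + T) ^ k) P
  rw [h1, hδ, pow_zero] at h2
  exact (add_right_cancel h2).symm

theorem sum_pow_eq (T : R) (P κ : ℕ) (hδ : (1 + T) ^ P = 1) :
    ∑ k ∈ Finset.range (1 + κ * P), (1 + T) ^ k = 1 + κ • Nm T P := by
  induction κ with
  | zero => simp
  | succ n ih =>
    have e : 1 + (n + 1) * P = (1 + n * P) + P := by ring
    rw [e, Finset.sum_range_add, ih]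
    have h2 : ∀ k ∈ Finset.range P, (1 + T) ^ (1 + n * P + k) = (1 + T) ^ (k + 1) := by
      intro k _
      have e2 : 1 + n * P + k = P * n + (k + 1) := by ring
      rw [e2, pow_add, pow_mul, hδ, one_pow, one_mul]
    rw [Finset.sum_congr rfl h2, sum_shift T P hδ, succ_nsmul, add_assoc]

end Geom

/-- **The contract of the deformation core, version 2** (`p`-torsion, no Hecke operator `g`).

`W = J_H[p]_m` (level `Γ_H(q) ∩ Γ₀(M q)`, generalised eigenspace of the `T_ℓ`, `ℓ ∤ N p`),
`T = δ - 1`, `U = U_q`, `Ut = U_q^t = w U_q w⁻¹`, `S = ρ(σ)`, `F = ρ(φ)`. -/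
structure Data (p : ℕ) [Fact p.Prime] : Type 1 where
  W : Type
  [acg : AddCommGroup W]
  [mod : Module (ZMod p) W]
  [nontriv : Nontrivial W]
  /-- `q = 1 + κ P`, `P` the order of `Δ` -/
  P : ℕ
  κ : ℕ
  q : ℕ
  hq : q = 1 + κ * P
  hκ : (κ : ZMod p) ≠ 0
  T : Module.End (ZMod p) W
  U : Module.End (ZMod p) W
  Ut : Module.End (ZMod p) W
  S : Module.End (ZMod p) W
  F : Module.End (ZMod p) W
  U_unit : IsUnit U
  T_U : Commute T U
  T_S : Commute T S
  U_S : Commute U S
  Ut_S : Commute Ut S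
  /-- `δ ^ P = 1` and `δ` is unipotent -/
  δ_pow : (1 + T) ^ P = 1
  T_nilp : IsNilpotent T
  /-- `Λ̄`-freeness, first half: `ker T ⊆ im Nm` -/
  H1 : ∀ x, T x = 0 → ∃ y, x = Nm T P y
  /-- the three quadratic relations (lead's memo) and the tame relation -/
  R1 : (S - (1 + T)) * (S - 1) = 0
  R2 : (S - (1 + T)) * (F - U) = 0
  R2' : (S - 1) * (F - Ut) = 0
  tame : F * S = S ^ q * F
  /-- `U_q^t - U_q` vanishes at level `Γ₀(M q)` (not `q`-old), i.e. on `W / T W` -/
  hc : ∀ x, ∃ y, Ut x - U x = T y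
  /-- (H5): `ρ̄` unramified at `q` + Cayley-Hamilton + Boston-Lenstra-Ribet -/
  ι : Type
  s : Finset ι
  t : ι → Module.End (ZMod p) W
  a : ι → Module.End (ZMod p) W
  t_T : ∀ i, Commute (t i) T
  t_S : ∀ i, Commute (t i) S
  t_F : ∀ i, Commute (t i) F
  t_U : ∀ i, Commute (t i) U
  t_t : ∀ i j, Commute (t i) (t j)
  t_nilp : ∀ i, IsNilpotent (t i)
  a_T : ∀ i, Commute (a i) T
  a_U : ∀ i, Commute (a i) U
  a_Ut : ∀ i, Commute (a i) Ut
  H5 : S - 1 = ∑ i ∈ s, t i * a i
  /-- (E') on `ker T = π^* J_0(M q)[p]_m` -/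
  exact : ∀ x, T x = 0 → S x = x → ∃ z, T z = 0 ∧ x = S z - z

attribute [instance] Data.acg Data.mod Data.nontriv

theorem false_of_data {p : ℕ} [Fact p.Prime] (D : Data p) : False := by
  classical
  obtain ⟨W, P, κ, q, hq, hκ, T, U, Ut, S, F, U_unit, T_U, T_S, U_S, Ut_S, δ_pow, T_nilp, H1, R1,
    R2, R2', tame, hc, ι, s, t, a, t_T, t_S, t_F, t_U, t_t, t_nilp, a_T, a_U, a_Ut, H5, exact⟩ := D
  set N : Module.End (ZMod p) W := S - 1 with hN
  set A : Module.End (ZMod p) W := F - U with hA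
  set c : Module.End (ZMod p) W := Ut - U with hcdef
  have TN : Commute T N := T_S.sub_right (Commute.one_right T)
  have UN : Commute U N := U_S.sub_right (Commute.one_right U)
  have cN : Commute c N := (Ut_S.sub_right (Commute.one_right Ut)).sub_left UN
  -- a linear map `g` with `T g = c`
  obtain ⟨g, hg⟩ : ∃ g : Module.End (ZMod p) W, T * g = c := by
    have hle : LinearMap.range c ≤ LinearMap.range T := by
      rintro _ ⟨x, rfl⟩
      obtain ⟨y, hy⟩ := hc x
      exact ⟨y, by rw [← hy]; rfl⟩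
    obtain ⟨g, hg⟩ := Module.projective_lifting_property T.rangeRestrict
      (c.codRestrict (LinearMap.range T) fun x => hle ⟨x, rfl⟩) T.surjective_rangeRestrict
    refine ⟨g, LinearMap.ext fun x => ?_⟩
    have := congrArg (fun f => ((f x : LinearMap.range T) : W)) hg
    exact this
  have e1 : S - (1 + T) = N - T := by rw [hN]; abel
  have R1' : N * N = T * N := by
    rw [e1, sub_mul] at R1
    exact sub_eq_zero.1 R1
  have R2a : N * A = T * A := by
    rw [e1, sub_mul] at R2
    exact sub_eq_zero.1 R2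
  have ID : T * A = c * N := by
    have e2 : F - Ut = A - c := by rw [hA, hcdef]; abel
    rw [e2, mul_sub] at R2'
    rw [← R2a, sub_eq_zero.1 R2', cN.eq]
  have hTNm : T * Nm T P = 0 := T_mul_Nm T P δ_pow
  have NmT : Commute (Nm T P) T := commute_Nm (Commute.refl T) P
  have NmU : Commute (Nm T P) U := commute_Nm T_U P
  have NmN : Commute (Nm T P) N := commute_Nm TN P
  -- `S ^ i N = δ ^ i N`
  have hSN : S * N = (1 + T) * N := by
    have : S = N + 1 := by rw [hN]; abel
    rw [this, add_mul, R1', one_mul, add_mul, one_mul, add_comm]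
  have δS : Commute (1 + T) S := (Commute.one_left S).add_left T_S
  have hSpow : ∀ i : ℕ, S ^ i * N = (1 + T) ^ i * N := by
    intro i
    induction i with
    | zero => simp
    | succ i ih =>
      rw [pow_succ, mul_assoc, hSN, ← mul_assoc, ← (δS.pow_right i).eq, mul_assoc, ih, ← mul_assoc,
        ← pow_succ']
  have hSq : S ^ q - 1 = (1 + κ • Nm T P) * N := by
    rw [← geom_sum_mul, Finset.sum_mul, Finset.sum_congr rfl fun i _ => hSpow i, ← Finset.sum_mul,
      hq, sum_pow_eq T P κ δ_pow]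
  have R3 : A * N = T * A + (κ : ZMod p) • (U * Nm T P * N) := by
    have h1 : F * N = (1 + κ • Nm T P) * N * F := by
      rw [← hSq, sub_mul, one_mul, ← tame, hN, mul_sub, mul_one]
    have h2 : N * F = T * A + U * N := by
      have : F = A + U := by rw [hA]; abel
      rw [this, mul_add, R2a, UN.eq]
    have h3 : Nm T P * (T * A) = 0 := by rw [← mul_assoc, NmT.eq, hTNm, zero_mul]
    have h4 : A * N = F * N - U * N := by rw [hA, sub_mul]
    rw [h4, h1, mul_assoc, h2, add_mul, one_mul, smul_mul_assoc, mul_add, h3, zero_add,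
      ← mul_assoc, NmU.eq, Nat.cast_smul_eq_nsmul]
    abel
  have hker := ker_eq_bot_of_core (κ : ZMod p) (isUnit_iff_ne_zero.2 hκ) T (Nm T P) U c N A g U_unit
    TN cN UN NmU NmN H1 hg R1' R2a ID R3 s t a t_T
    (fun i => (t_S i).sub_right (Commute.one_right _))
    (fun i => (t_F i).sub_right (t_U i)) t_t t_nilp a_T
    (fun i => (a_Ut i).sub_right (a_U i)) H5
    (fun x hx hNx => by
      obtain ⟨z, hz, hz'⟩ := exact x hx (sub_eq_zero.1 hNx)
      exact ⟨z, hz, hz'⟩)
  obtain ⟨n, hn⟩ := T_nilp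
  have hpow : ∀ n : ℕ, ∀ x, (T ^ n) x = 0 → x = 0 := by
    intro n
    induction n with
    | zero => intro x hx; simpa using hx
    | succ n ih =>
      intro x hx
      rw [pow_succ', End.mul_apply] at hx
      exact ih x (hker _ hx)
  obtain ⟨x, hx⟩ := exists_ne (0 : W)
  exact hx (hpow n x (by rw [hn]; rfl))

end Fermat.Agent.S43.CoreP
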