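/-
Row 37 (S43), chief helper1.  ENDGAME (pure algebra, Mathlib only).

`W0 = J_0(qM)[p]_m` as an `𝔽_p`-space with a commuting family of Hecke operators `Tl i`
(generalised eigenvalues `a i`), `N0 = σ - 1` (σ a generator of tame inertia at `q`) and the operator
`Z0` produced by the deformation to `Γ_H(q)` (or `Z0 = Frob_q - U_q` when `q ≢ 1 mod p`).
-/
import Mathlib

set_option autoImplicit false

namespace Fermat.Agent.S43.Endgame

/-- The data of the endgame. -/
structure Data (p : ℕ) [Fact p.Prime] : Type 1 where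
  W0 : Type
  [acg : AddCommGroup W0]
  [mod : Module (ZMod p) W0]
  [fin : Module.Finite (ZMod p) W0]
  [nontriv : Nontrivial W0]
  /-- index set of the Hecke operators -/
  ι : Type
  Tl : ι → Module.End (ZMod p) W0
  a : ι → ZMod p
  Tl_comm : ∀ i j, Commute (Tl i) (Tl j)
  /-- `W0` is the generalised eigenspace -/
  nilp : ∀ i, IsNilpotent (Tl i - a i • (1 : Module.End (ZMod p) W0))
  N0 : Module.End (ZMod p) W0
  Z0 : Module.End (ZMod p) W0
  c : ZMod p
  c_ne : c ≠ 0
  Z0_Tl : ∀ i, Commute Z0 (Tl i)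
  N0_Z0 : N0 * Z0 = 0
  Z0_N0 : Z0 * N0 = c • N0
  /-- (E'): `ker N0 ⊆ im N0` -/
  exact : ∀ x, N0 x = 0 → ∃ y, x = N0 y
  /-- `ρ̄` unramified at `q` + Boston-Lenstra-Ribet: inertia acts trivially on `W0[m]` -/
  unram : ∀ x, (∀ i, Tl i x = a i • x) → N0 x = 0

attribute [instance] Data.acg Data.mod Data.fin Data.nontriv

/-- A nonzero subspace stable under a commuting family of operators `Tl i` with `Tl i - a i`
nilpotent contains a nonzero common eigenvector. -/
theorem exists_common_eigenvector {k V ι : Type*} [Field k] [AddCommGroup V] [Module k V]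
    [Module.Finite k V] (Tl : ι → Module.End k V) (a : ι → k)
    (hcomm : ∀ i j, Commute (Tl i) (Tl j))
    (hnil : ∀ i, IsNilpotent (Tl i - a i • (1 : Module.End k V)))
    (S : Submodule k V) (hS : ∀ i, ∀ x ∈ S, Tl i x ∈ S) (hne : S ≠ ⊥) :
    ∃ x ∈ S, x ≠ 0 ∧ ∀ i, Tl i x = a i • x := by
  classical
  -- a minimal nonzero stable subspace
  let 𝒮 : Set (Submodule k V) := {S' | S' ≤ S ∧ S' ≠ ⊥ ∧ ∀ i, ∀ x ∈ S', Tl i x ∈ S'}
  have h𝒮 : 𝒮.Nonempty := ⟨S, le_rfl, hne, hS⟩
  obtain ⟨S', ⟨hS'S, hS'ne, hS'st⟩, hmin⟩ :=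
    (wellFounded_lt (α := Submodule k V)).has_min 𝒮 h𝒮
  have key : ∀ i, ∀ x ∈ S', Tl i x = a i • x := by
    intro i
    set B : Module.End k V := Tl i - a i • (1 : Module.End k V) with hB
    have hBst : ∀ x ∈ S', B x ∈ S' := by
      intro x hx
      have : B x = Tl i x - a i • x := by simp [hB]
      rw [this]
      exact S'.sub_mem (hS'st i x hx) (S'.smul_mem _ hx)
    have hBpow : ∀ n : ℕ, ∀ x ∈ S', (B ^ n) x ∈ S' := by
      intro n
      induction n with
      | zero => intro x hx; simpa using hx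
      | succ n ih =>
        intro x hx
        rw [pow_succ', Module.End.mul_apply]
        exact hBst _ (ih x hx)
    let S'' : Submodule k V := S' ⊓ LinearMap.ker B
    have hS''le : S'' ≤ S' := inf_le_left
    have hS''ne : S'' ≠ ⊥ := by
      obtain ⟨x, hx, hx0⟩ := S'.ne_bot_iff.1 hS'ne
      obtain ⟨n, hn⟩ := hnil i
      have hex : ∃ n : ℕ, (B ^ n) x = 0 := ⟨n, by rw [hn]; rfl⟩
      have hpos : Nat.find hex ≠ 0 := by
        intro h0
        have := Nat.find_spec hex
        rw [h0] at this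
        exact hx0 (by simpa using this)
      obtain ⟨m, hm⟩ := Nat.exists_eq_succ_of_ne_zero hpos
      have hy0 : (B ^ m) x ≠ 0 := Nat.find_min hex (by omega)
      refine (Submodule.ne_bot_iff _).2 ⟨(B ^ m) x, ⟨hBpow m x hx, ?_⟩, hy0⟩
      have := Nat.find_spec hex
      rw [hm, pow_succ', Module.End.mul_apply] at this
      exact this
    have hS''st : ∀ j, ∀ x ∈ S'', Tl j x ∈ S'' := by
      rintro j x ⟨hx1, hx2⟩
      refine ⟨hS'st j x hx1, ?_⟩
      have hc : Commute B (Tl j) := by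
        rw [hB]
        exact (hcomm i j).sub_left ((Commute.one_left _).smul_left _)
      have h1 : B (Tl j x) = Tl j (B x) := by
        rw [← Module.End.mul_apply, hc.eq, Module.End.mul_apply]
      show B (Tl j x) = 0
      rw [h1, show B x = 0 from hx2, map_zero]
    have heq : S'' = S' := by
      by_contra hne'
      exact hmin S'' ⟨hS''le.trans hS'S, hS''ne, hS''st⟩ (lt_of_le_of_ne hS''le hne')
    intro x hx
    have hx' : x ∈ S'' := heq ▸ hx
    have h0 : B x = 0 := hx'.2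
    have : B x = Tl i x - a i • x := by simp [hB]
    rw [this] at h0
    exact sub_eq_zero.1 h0
  obtain ⟨x, hx, hx0⟩ := S'.ne_bot_iff.1 hS'ne
  exact ⟨x, hS'S hx, hx0, fun i => key i x hx⟩

theorem false_of_data {p : ℕ} [Fact p.Prime] (D : Data p) : False := by
  classical
  have hc := D.c_ne
  have hNZ : ∀ z, D.N0 (D.Z0 z) = 0 := fun z => by
    rw [← Module.End.mul_apply, D.N0_Z0]; rfl
  have hZN : ∀ y, D.Z0 (D.N0 y) = D.c • D.N0 y := fun y => by
    rw [← Module.End.mul_apply, D.Z0_N0]; rfl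
  have hZZ : ∀ z, D.Z0 (D.Z0 z) = D.c • D.Z0 z := by
    intro z
    obtain ⟨y, hy⟩ := D.exact _ (hNZ z)
    rw [hy, hZN]
  -- `Q = 1 - c⁻¹ Z0`
  let Q : Module.End (ZMod p) D.W0 := 1 - D.c⁻¹ • D.Z0
  have hQ : ∀ z, Q z = z - D.c⁻¹ • D.Z0 z := fun z => by simp [Q]
  have hQQ : ∀ z, Q (Q z) = Q z := by
    intro z
    rw [hQ (Q z), hQ z, map_sub, map_smul, hZZ, smul_smul, inv_mul_cancel₀ hc, one_smul, sub_self,
      smul_zero, sub_zero]
  have hbot : LinearMap.range Q = ⊥ := by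
    by_contra hne
    obtain ⟨x, ⟨z, rfl⟩, hx0, hx⟩ := exists_common_eigenvector D.Tl D.a D.Tl_comm D.nilp
      (LinearMap.range Q) (by
        rintro i _ ⟨z, rfl⟩
        refine ⟨D.Tl i z, ?_⟩
        have h1 : D.Z0 (D.Tl i z) = D.Tl i (D.Z0 z) := by
          rw [← Module.End.mul_apply, (D.Z0_Tl i).eq, Module.End.mul_apply]
        rw [hQ, hQ, h1, map_sub, map_smul]) hne
    obtain ⟨y, hy⟩ := D.exact _ (D.unram _ hx)
    have h1 : Q (Q z) = 0 := by
      rw [hQ (Q z), hy, hZN, smul_smul, inv_mul_cancel₀ hc, one_smul, sub_self]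
    rw [hQQ] at h1
    exact hx0 h1
  have hid : ∀ z, z = D.c⁻¹ • D.Z0 z := by
    intro z
    have : Q z = 0 := by
      have : Q z ∈ LinearMap.range Q := ⟨z, rfl⟩
      rw [hbot] at this
      exact this
    rw [hQ] at this
    exact sub_eq_zero.1 this
  have hN0 : ∀ z, D.N0 z = 0 := by
    intro z
    rw [hid z, map_smul, hNZ, smul_zero]
  obtain ⟨x, hx⟩ := exists_ne (0 : D.W0)
  obtain ⟨y, hy⟩ := D.exact x (hN0 x)
  exact hx (by rw [hy, hN0])

end Fermat.Agent.S43.Endgame
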