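/-
Row 37 (S43 = Ribet level lowering for the Frey curve), chief helper1.  TOP THEOREM.
Blueprint: reports #1481 (helper1), #1513 (helper43), #1514 (helper25), instruction 7381 (helper5).

`result_of_nodes : NodeS44 → NodeData → (frozen S43)`.
* `NodeS44`  = the frozen statement S44 (removal of `p` from the level), consumed as a hypothesis.
* `NodeData` = for a level `M q` prime to `p`, if `ρ̄` is unramified at `q` and NOT modular of level
  `M`, the endgame data exist (and they are contradictory: `Endgame.false_of_data`).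
-/
import Fermat.Statements.S43
import Fermat.Agent.S43.Endgame

set_option autoImplicit false
open WeierstrassCurve WeierstrassCurve.Affine WeierstrassCurve.Affine.Point
open CuspForm ModularFormClass UpperHalfPlane
open FreyPackage

namespace Fermat.Agent.S43

/-- The frozen statement S44. -/
def NodeS44 : Prop :=
  ∀ (P : FreyPackage) {N : ℕ}, P.IsConductorLevel N → P.p ∣ N →
    GaloisRepIsIrreducible (K := AlgebraicClosure ℚ) ℚ P.freyCurve P.p →
    P.ModularRepOfLevel N → ∃ M : ℕ, M ∣ N ∧ ¬ P.p ∣ M ∧ P.ModularRepOfLevel M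

/-- The hypotheses of the main case: level `M * q` prime to `p`, `ρ̄` unramified at `q`, modular of
level `M * q`, not of level `M`. -/
structure Hyp (P : FreyPackage) (M q : ℕ) : Prop where
  cond : P.IsConductorLevel (M * q)
  hq : q.Prime
  hq2 : q ≠ 2
  hqp : q ≠ P.p
  hpN : ¬ P.p ∣ M * q
  hirr : GaloisRepIsIrreducible (K := AlgebraicClosure ℚ) ℚ P.freyCurve P.p
  hmod : P.ModularRepOfLevel (M * q)
  hunr : P.GaloisRepUnramifiedAt q
  hnot : ¬ P.ModularRepOfLevel M

instance (P : FreyPackage) : Fact P.p.Prime := ⟨P.pp⟩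

/-- **The main node.** -/
def NodeData : Prop :=
  ∀ (P : FreyPackage) (M q : ℕ), Hyp P M q → Nonempty (Endgame.Data P.p)

theorem result_of_nodes (h44 : NodeS44) (hD : NodeData)
    (P : FreyPackage) {N q : ℕ} (hcond : P.IsConductorLevel N) (hq : q.Prime) (hq2 : q ≠ 2)
    (hqp : q ≠ P.p) (hqN : q ∣ N)
    (hirr : GaloisRepIsIrreducible (K := AlgebraicClosure ℚ) ℚ P.freyCurve P.p)
    (hmod : P.ModularRepOfLevel N) (hunr : P.GaloisRepUnramifiedAt q) :
    ∃ M : ℕ, M ∣ N ∧ ¬ q ∣ M ∧ P.ModularRepOfLevel M := by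
  -- the case of a level prime to `p`
  have main : ∀ N₁ : ℕ, N₁ ∣ N → ¬ P.p ∣ N₁ → P.ModularRepOfLevel N₁ →
      ∃ M : ℕ, M ∣ N ∧ ¬ q ∣ M ∧ P.ModularRepOfLevel M := by
    intro N₁ hN₁ hp₁ hmod₁
    by_cases hq₁ : q ∣ N₁
    · obtain ⟨M, rfl⟩ := hq₁
      have hpos : 0 < q * M := Nat.pos_of_dvd_of_pos hN₁ hcond.pos
      have hc₁ : P.IsConductorLevel (q * M) := hcond.of_dvd hN₁ hpos
      have hqM : ¬ q ∣ M := by
        rintro ⟨k, rfl⟩
        exact hc₁.sq_not_dvd hq ⟨k, by ring⟩
      refine ⟨M, (Dvd.intro_left q rfl).trans hN₁, hqM, ?_⟩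
      by_contra hnot
      have hyp : Hyp P M q :=
        { cond := by rw [mul_comm]; exact hc₁
          hq := hq, hq2 := hq2, hqp := hqp
          hpN := by rw [mul_comm]; exact hp₁
          hirr := hirr
          hmod := by rw [mul_comm]; exact hmod₁
          hunr := hunr, hnot := hnot }
      exact Endgame.false_of_data (hD P M q hyp).some
    · exact ⟨N₁, hN₁, hq₁, hmod₁⟩
  by_cases hpN : P.p ∣ N
  · obtain ⟨M₁, hM₁, hpM₁, hmod₁⟩ := h44 P hcond hpN hirr hmod
    exact main M₁ hM₁ hpM₁ hmod₁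
  · exact main N dvd_rfl hpN hmod

end Fermat.Agent.S43
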