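/-
Row 37 (S43), abstract core in MODULE form (helper41).  Mathlib only.

`coreMod`: `R` local, `L` a finitely generated `R`-module on which `P` (`= p ^ a`) is injective,
`N` (`= σ - 1`), `A` (`= φ - u`) `R`-linear with `ker N = im N`, `N A = 0`, `A N = κ P N`, `κ` a unit.
`g` is only an ADDITIVE endomorphism of `L` which commutes modulo `P` with the scalars and with
additive endomorphisms `a i`, and `A ≡ g N` modulo `P`.  If `N = ∑ t i • a i` with `t i` in the
maximal ideal (the residual representation is unramified), then `L = 0`.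

No lift of `g` to an `R`-linear endomorphism is needed.
-/
import Mathlib

set_option autoImplicit false

namespace Fermat.Agent.S43

section Ring

variable {E : Type*} [Ring E]

/-- the computation in the ring of additive endomorphisms. -/
theorem coreMod_ring {ι : Type*} (s : Finset ι) (P : ℕ)
    (hP : ∀ X : E, (P : E) * X = 0 → X = 0)
    (N A g Z kap : E) (τ c a d : ι → E)
    (hNN : N * N = 0) (hNA : N * A = 0) (hAN : A * N = (P : E) * (kap * N))
    (hA : A = g * N + (P : E) * Z)
    (hτN : ∀ i ∈ s, τ i * N = N * τ i) (hτA : ∀ i ∈ s, τ i * A = A * τ i)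
    (hc : ∀ i ∈ s, g * τ i = τ i * g + (P : E) * c i)
    (hd : ∀ i ∈ s, g * a i = a i * g + (P : E) * d i)
    (hN : N = ∑ i ∈ s, τ i * a i) :
    ∃ S : E, N * S = 0 ∧ kap * N = ∑ i ∈ s, τ i * (S * a i + N * d i) := by
  have hPc : ∀ X : E, (P : E) * X = X * (P : E) := fun X => Nat.cast_commute P X
  have hPm : ∀ X Y : E, X * ((P : E) * Y) = (P : E) * (X * Y) := by
    intro X Y
    rw [← mul_assoc, ← hPc X, mul_assoc]
  have hcancel : ∀ X Y : E, (P : E) * X = (P : E) * Y → X = Y := by
    intro X Y h
    have : (P : E) * (X - Y) = 0 := by rw [mul_sub, h, sub_self]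
    exact sub_eq_zero.mp (hP _ this)
  obtain ⟨D, hD⟩ : ∃ D : E, D = ∑ i ∈ s, (c i * a i + τ i * d i) := ⟨_, rfl⟩
  -- `g N = N g + P D`
  have hgN : g * N = N * g + (P : E) * D := by
    have h1 : g * N = ∑ i ∈ s, g * (τ i * a i) := by
      conv_lhs => rw [hN]
      rw [Finset.mul_sum]
    have h2 : N * g = ∑ i ∈ s, τ i * a i * g := by
      conv_lhs => rw [hN]
      rw [Finset.sum_mul]
    rw [h1, h2, hD, Finset.mul_sum, ← Finset.sum_add_distrib]
    refine Finset.sum_congr rfl fun i hi => ?_
    calc g * (τ i * a i) = (g * τ i) * a i := by rw [mul_assoc]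
      _ = (τ i * g + (P : E) * c i) * a i := by rw [hc i hi]
      _ = τ i * (g * a i) + (P : E) * (c i * a i) := by rw [add_mul, mul_assoc, mul_assoc]
      _ = τ i * (a i * g + (P : E) * d i) + (P : E) * (c i * a i) := by rw [hd i hi]
      _ = τ i * a i * g + (P : E) * (c i * a i + τ i * d i) := by
          rw [mul_add, hPm, mul_add, mul_assoc]
          abel
  obtain ⟨S, hS⟩ : ∃ S : E, S = D + Z := ⟨_, rfl⟩
  have hAS : A = N * g + (P : E) * S := by
    rw [hA, hgN, hS, mul_add, add_assoc]
  -- (1)
  have h1 : N * S = 0 := by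
    apply hP
    have : N * A = N * N * g + (P : E) * (N * S) := by
      rw [hAS, mul_add, hPm, mul_assoc]
    rw [hNA, hNN, zero_mul, zero_add] at this
    exact this.symm
  -- (2)
  have h2 : ∀ i ∈ s, S * τ i = τ i * S - N * c i := by
    intro i hi
    apply hcancel
    have e1 : (P : E) * S = A - N * g := by rw [hAS]; abel
    calc (P : E) * (S * τ i) = ((P : E) * S) * τ i := by rw [mul_assoc]
      _ = (A - N * g) * τ i := by rw [e1]
      _ = A * τ i - N * (g * τ i) := by rw [sub_mul, mul_assoc]
      _ = τ i * A - N * (τ i * g + (P : E) * c i) := by rw [hτA i hi, hc i hi]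
      _ = τ i * (A - N * g) - (P : E) * (N * c i) := by
          rw [mul_add, hPm, mul_sub, ← mul_assoc N (τ i), ← hτN i hi, mul_assoc]
          abel
      _ = τ i * ((P : E) * S) - (P : E) * (N * c i) := by rw [e1]
      _ = (P : E) * (τ i * S - N * c i) := by rw [mul_sub, hPm]
  -- (3)
  have h3 : kap * N = N * D + S * N := by
    apply hcancel
    calc (P : E) * (kap * N) = A * N := hAN.symm
      _ = (N * g + (P : E) * S) * N := by rw [← hAS]
      _ = N * (g * N) + (P : E) * (S * N) := by rw [add_mul, mul_assoc, mul_assoc]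
      _ = N * (N * g + (P : E) * D) + (P : E) * (S * N) := by rw [hgN]
      _ = N * N * g + (P : E) * (N * D + S * N) := by
          rw [mul_add, hPm, mul_add, mul_assoc]
          abel
      _ = (P : E) * (N * D + S * N) := by rw [hNN, zero_mul, zero_add]
  refine ⟨S, h1, ?_⟩
  -- (4)
  have h4 : S * N = ∑ i ∈ s, (τ i * S - N * c i) * a i := by
    conv_lhs => rw [hN]
    rw [Finset.mul_sum]
    refine Finset.sum_congr rfl fun i hi => ?_
    rw [← mul_assoc, h2 i hi]
  have h5 : N * D = ∑ i ∈ s, (N * c i * a i + τ i * (N * d i)) := by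
    rw [hD, Finset.mul_sum]
    refine Finset.sum_congr rfl fun i hi => ?_
    rw [mul_add, ← mul_assoc, ← mul_assoc N (τ i), ← hτN i hi, mul_assoc (τ i)]
  rw [h3, h4, h5, ← Finset.sum_add_distrib]
  refine Finset.sum_congr rfl fun i _ => ?_
  rw [sub_mul, mul_add, mul_assoc (τ i) S]
  abel

end Ring

section Module

variable {R L : Type*} [CommRing R] [AddCommGroup L] [Module R L]

/-- division by `P` of an additive map with values in `P L`. -/
theorem exists_addMonoidHom_div (P : ℕ) (hP : ∀ v : L, P • v = 0 → v = 0) (f : L →+ L)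
    (h : ∀ v, ∃ w, f v = P • w) : ∃ f' : L →+ L, ∀ v, f v = P • f' v := by
  choose f' hf' using h
  have hinj : ∀ x y : L, P • x = P • y → x = y := by
    intro x y hxy
    have : P • (x - y) = 0 := by rw [smul_sub, hxy, sub_self]
    exact sub_eq_zero.mp (hP _ this)
  refine ⟨AddMonoidHom.mk' f' ?_, hf'⟩
  intro x y
  apply hinj
  rw [← hf', map_add, hf' x, hf' y, smul_add]

/-- **Core of row 37, module form.** -/
theorem coreMod [IsLocalRing R] [Module.Finite R L] (P : ℕ) (hP : ∀ v : L, P • v = 0 → v = 0)
    (kap : R) (hkap : IsUnit kap) (N A : L →ₗ[R] L)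
    (H1 : LinearMap.ker N = LinearMap.range N)
    (H2 : ∀ v, N (A v) = 0)
    (H3 : ∀ v, A (N v) = P • (kap • N v))
    (g : L →+ L)
    (H4 : ∀ v, ∃ w, A v - g (N v) = P • w)
    (hgR : ∀ (t : R) (v : L), ∃ w, g (t • v) - t • g v = P • w)
    {ι : Type*} (s : Finset ι) (t : ι → R) (a : ι → L →+ L)
    (ht : ∀ i ∈ s, t i ∈ IsLocalRing.maximalIdeal R)
    (H5 : ∀ v, N v = ∑ i ∈ s, t i • a i v)
    (hga : ∀ i ∈ s, ∀ v, ∃ w, g (a i v) - a i (g v) = P • w) :
    Subsingleton L := by
  classical
  -- the ring of additive endomorphisms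
  let I : (L →+ L) → Module.End ℤ L := fun f => f.toIntLinearMap
  have hI : ∀ (f : L →+ L) (v : L), I f v = f v := fun _ _ => rfl
  let sm : R → Module.End ℤ L := fun r => I (DistribSMul.toAddMonoidHom L r)
  have hsm : ∀ (r : R) (v : L), sm r v = r • v := fun _ _ => rfl
  let N' : Module.End ℤ L := N.restrictScalars ℤ
  let A' : Module.End ℤ L := A.restrictScalars ℤ
  have hN' : ∀ v, N' v = N v := fun _ => rfl
  have hA' : ∀ v, A' v = A v := fun _ => rfl
  have hcast : ∀ (X : Module.End ℤ L) (v : L), ((P : Module.End ℤ L) * X) v = P • X v := by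
    intro X v
    rw [Module.End.mul_apply, Module.End.natCast_apply]
  obtain ⟨Z, hZ⟩ := exists_addMonoidHom_div P hP (A.toAddMonoidHom - g.comp N.toAddMonoidHom)
    (fun v => H4 v)
  have hcex : ∀ i : ι, ∃ c : L →+ L, ∀ v, g (t i • v) - t i • g v = P • c v := fun i =>
    exists_addMonoidHom_div P hP (g.comp (DistribSMul.toAddMonoidHom L (t i)) -
      (DistribSMul.toAddMonoidHom L (t i)).comp g) (fun v => hgR (t i) v)
  choose c hc using hcex
  have hdex : ∀ i : ι, ∃ d : L →+ L, i ∈ s → ∀ v, g (a i v) - a i (g v) = P • d v := by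
    intro i
    by_cases hi : i ∈ s
    · obtain ⟨d, hd⟩ := exists_addMonoidHom_div P hP (g.comp (a i) - (a i).comp g)
        (fun v => hga i hi v)
      exact ⟨d, fun _ => hd⟩
    · exact ⟨0, fun h => absurd h hi⟩
  choose d hd using hdex
  have hNN : ∀ v, N (N v) = 0 := by
    intro v
    have : N v ∈ LinearMap.ker N := by rw [H1]; exact ⟨v, rfl⟩
    exact this
  obtain ⟨S, hS1, hS2⟩ := coreMod_ring (E := Module.End ℤ L) s P
    (by
      intro X hX
      ext v
      have := DFunLike.congr_fun hX v
      rw [hcast] at this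
      exact hP _ this)
    N' A' (I g) (I Z) (sm kap) (fun i => sm (t i)) (fun i => I (c i)) (fun i => I (a i))
    (fun i => I (d i))
    (by ext v; exact hNN v)
    (by ext v; exact H2 v)
    (by
      ext v
      rw [hcast]
      exact H3 v)
    (by
      ext v
      have : A v - g (N v) = P • Z v := hZ v
      rw [LinearMap.add_apply, hcast]
      show A v = g (N v) + P • Z v
      rw [← this]
      abel)
    (by
      intro i _
      ext v
      show t i • N v = N (t i • v)
      rw [map_smul])
    (by
      intro i _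
      ext v
      show t i • A v = A (t i • v)
      rw [map_smul])
    (by
      intro i _
      ext v
      have := hc i v
      rw [LinearMap.add_apply, hcast]
      show g (t i • v) = t i • g v + P • c i v
      rw [← this]
      abel)
    (by
      intro i hi
      ext v
      have := hd i hi v
      rw [LinearMap.add_apply, hcast]
      show g (a i v) = a i (g v) + P • d i v
      rw [← this]
      abel)
    (by
      ext v
      rw [hN', H5 v, LinearMap.sum_apply]
      rfl)
  -- Nakayama
  have hle : LinearMap.range N ≤ IsLocalRing.maximalIdeal R • LinearMap.range N := by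
    rintro _ ⟨v, rfl⟩
    have h1 : kap • N v = ∑ i ∈ s, t i • (S (a i v) + N (d i v)) := by
      have := DFunLike.congr_fun hS2 v
      rw [LinearMap.sum_apply] at this
      exact this
    have h2 : kap • N v ∈ IsLocalRing.maximalIdeal R • LinearMap.range N := by
      rw [h1]
      refine Submodule.sum_mem _ fun i hi => Submodule.smul_mem_smul (ht i hi) ?_
      refine Submodule.add_mem _ ?_ ⟨_, rfl⟩
      rw [← H1]
      exact DFunLike.congr_fun hS1 (a i v)
    obtain ⟨k, rfl⟩ := hkap
    have := Submodule.smul_mem (IsLocalRing.maximalIdeal R • LinearMap.range N)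
      ((k⁻¹ : Rˣ) : R) h2
    rwa [smul_smul, Units.inv_mul, one_smul] at this
  have hfg : (LinearMap.range N).FG := by
    rw [LinearMap.range_eq_map]
    exact (Module.Finite.fg_top).map N
  have hbot : LinearMap.range N = ⊥ :=
    Submodule.eq_bot_of_le_smul_of_le_jacobson_bot _ _ hfg hle
      (by rw [IsLocalRing.jacobson_eq_maximalIdeal ⊥ bot_ne_top])
  refine ⟨fun x y => ?_⟩
  have hx : ∀ z : L, z = 0 := by
    intro z
    have h0 : N z = 0 := by
      have : N z ∈ LinearMap.range N := ⟨z, rfl⟩
      rw [hbot] at this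
      exact this
    have : z ∈ LinearMap.range N := by rw [← H1]; exact h0
    rw [hbot] at this
    exact this
  rw [hx x, hx y]

end Module

end Fermat.Agent.S43
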