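/-
Row 37 (S43).  helper28.  TOP THEOREM, version P: from the contract `CoreP.Data` (no Hecke operator `g`,
no (F1)/(K1)/ALPHA).  Two forms:
* `result_of_deformP  : NodeS44 → NodeDeformP → (frozen S43)`   (levels prime to `p` only);
* `result_of_deformP' : NodeDeformP' → (frozen S43)`            (`p ∣ N` allowed, S44 not used).
-/
import Fermat.Agent.S43.Top
import Fermat.Agent.S43.CoreP

set_option autoImplicit false
open WeierstrassCurve WeierstrassCurve.Affine WeierstrassCurve.Affine.Point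
open CuspForm ModularFormClass UpperHalfPlane
open FreyPackage

namespace Fermat.Agent.S43

/-- **Node DEFORM, version 2** (levels prime to `p`). -/
def NodeDeformP : Prop :=
  ∀ (P : FreyPackage) (M q : ℕ), Hyp P M q → Nonempty (CoreP.Data P.p)

/-- The hypotheses of the main case, `p ∣ M` allowed. -/
structure Hyp' (P : FreyPackage) (M q : ℕ) : Prop where
  cond : P.IsConductorLevel (M * q)
  hq : q.Prime
  hq2 : q ≠ 2
  hqp : q ≠ P.p
  hirr : GaloisRepIsIrreducible (K := AlgebraicClosure ℚ) ℚ P.freyCurve P.p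
  hmod : P.ModularRepOfLevel (M * q)
  hunr : P.GaloisRepUnramifiedAt q
  hnot : ¬ P.ModularRepOfLevel M

/-- **Node DEFORM, version 2'** (`p ∣ M` allowed). -/
def NodeDeformP' : Prop :=
  ∀ (P : FreyPackage) (M q : ℕ), Hyp' P M q → Nonempty (CoreP.Data P.p)

theorem result_of_deformP' (hD : NodeDeformP')
    (P : FreyPackage) {N q : ℕ} (hcond : P.IsConductorLevel N) (hq : q.Prime) (hq2 : q ≠ 2)
    (hqp : q ≠ P.p) (hqN : q ∣ N)
    (hirr : GaloisRepIsIrreducible (K := AlgebraicClosure ℚ) ℚ P.freyCurve P.p)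
    (hmod : P.ModularRepOfLevel N) (hunr : P.GaloisRepUnramifiedAt q) :
    ∃ M : ℕ, M ∣ N ∧ ¬ q ∣ M ∧ P.ModularRepOfLevel M := by
  obtain ⟨M, rfl⟩ := hqN
  have hqM : ¬ q ∣ M := by
    rintro ⟨k, rfl⟩
    exact hcond.sq_not_dvd hq ⟨k, by ring⟩
  refine ⟨M, Dvd.intro_left q rfl, hqM, ?_⟩
  by_contra hnot
  have hyp : Hyp' P M q :=
    { cond := by rw [mul_comm]; exact hcond
      hq := hq, hq2 := hq2, hqp := hqp
      hirr := hirr
      hmod := by rw [mul_comm]; exact hmod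
      hunr := hunr, hnot := hnot }
  exact CoreP.false_of_data (hD P M q hyp).some

theorem result_of_deformP (h44 : NodeS44) (hD : NodeDeformP)
    (P : FreyPackage) {N q : ℕ} (hcond : P.IsConductorLevel N) (hq : q.Prime) (hq2 : q ≠ 2)
    (hqp : q ≠ P.p) (hqN : q ∣ N)
    (hirr : GaloisRepIsIrreducible (K := AlgebraicClosure ℚ) ℚ P.freyCurve P.p)
    (hmod : P.ModularRepOfLevel N) (hunr : P.GaloisRepUnramifiedAt q) :
    ∃ M : ℕ, M ∣ N ∧ ¬ q ∣ M ∧ P.ModularRepOfLevel M := by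
  have main : ∀ N₁ : ℕ, N₁ ∣ N → ¬ P.p ∣ N₁ → P.ModularRepOfLevel N₁ →
      ∃ M : ℕ, M ∣ N ∧ ¬ q ∣ M ∧ P.ModularRepOfLevel M := by
    intro N₁ hN₁ hp₁ hmod₁
    by_cases hq₁ : q ∣ N₁
    · obtain ⟨M, rfl⟩ := hq₁
      have hpos : 0 < q * M := Nat.pos_of_dvd_of_pos hN₁ hcond.pos
      have hc₁ : P.IsConductorLevel (q * M) := hcond.of_dvd hN₁ hpos
      have hqM : ¬ q ∣ M := by
        rintro ⟨k, rfl⟩
        exact hc₁.sq_not_dvd hq ⟨k, by ring⟩
      refine ⟨M, (Dvd.intro_left q rfl).trans hN₁, hqM, ?_⟩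
      by_contra hnot
      have hyp : Hyp P M q :=
        { cond := by rw [mul_comm]; exact hc₁
          hq := hq, hq2 := hq2, hqp := hqp
          hpN := by rw [mul_comm]; exact hp₁
          hirr := hirr
          hmod := by rw [mul_comm]; exact hmod₁
          hunr := hunr, hnot := hnot }
      exact CoreP.false_of_data (hD P M q hyp).some
    · exact ⟨N₁, hN₁, hq₁, hmod₁⟩
  by_cases hpN : P.p ∣ N
  · obtain ⟨M₁, hM₁, hpM₁, hmod₁⟩ := h44 P hcond hpN hirr hmod
    exact main M₁ hM₁ hpM₁ hmod₁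
  · exact main N dvd_rfl hpN hmod

end Fermat.Agent.S43
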