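/-
Row 37 (S43).  TOP THEOREM, SECOND FORM (helper94): the frozen statement S43 from the contract without `g`
(`Deform2.Data`, `S43/Deform2/Defs.lean`).

* `result_of_deform2  : NodeDeform2 → (frozen S43)`            : NO S44, the level `M q` may be divisible by `p`;
* `result_of_deform2' : NodeS44 → NodeDeform2' → (frozen S43)` : fallback, level prime to `p` (`Hyp` of `Top.lean`).
-/
import Fermat.Agent.S43.Top
import Fermat.Agent.S43.Deform2.Main

set_option autoImplicit false
open WeierstrassCurve WeierstrassCurve.Affine WeierstrassCurve.Affine.Point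
open CuspForm ModularFormClass UpperHalfPlane
open FreyPackage

namespace Fermat.Agent.S43

/-- The hypotheses of the main case, WITHOUT `p ∤ M q`. -/
structure Hyp2 (P : FreyPackage) (M q : ℕ) : Prop where
  cond : P.IsConductorLevel (M * q)
  hq : q.Prime
  hq2 : q ≠ 2
  hqp : q ≠ P.p
  hirr : GaloisRepIsIrreducible (K := AlgebraicClosure ℚ) ℚ P.freyCurve P.p
  hmod : P.ModularRepOfLevel (M * q)
  hunr : P.GaloisRepUnramifiedAt q
  hnot : ¬ P.ModularRepOfLevel M

theorem Hyp.toHyp2 {P : FreyPackage} {M q : ℕ} (h : Hyp P M q) : Hyp2 P M q :=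
  ⟨h.cond, h.hq, h.hq2, h.hqp, h.hirr, h.hmod, h.hunr, h.hnot⟩

/-- **Node DEFORM, second form** (any level). -/
def NodeDeform2 : Prop :=
  ∀ (P : FreyPackage) (M q : ℕ), Hyp2 P M q → Nonempty (Deform2.Data P.p)

/-- **Node DEFORM, second form** (level prime to `p`). -/
def NodeDeform2' : Prop :=
  ∀ (P : FreyPackage) (M q : ℕ), Hyp P M q → Nonempty (Deform2.Data P.p)

theorem NodeDeform2.prime (h : NodeDeform2) : NodeDeform2' := fun P M q hyp => h P M q hyp.toHyp2

theorem result_of_deform2 (hD : NodeDeform2)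
    (P : FreyPackage) {N q : ℕ} (hcond : P.IsConductorLevel N) (hq : q.Prime) (hq2 : q ≠ 2)
    (hqp : q ≠ P.p) (hqN : q ∣ N)
    (hirr : GaloisRepIsIrreducible (K := AlgebraicClosure ℚ) ℚ P.freyCurve P.p)
    (hmod : P.ModularRepOfLevel N) (hunr : P.GaloisRepUnramifiedAt q) :
    ∃ M : ℕ, M ∣ N ∧ ¬ q ∣ M ∧ P.ModularRepOfLevel M := by
  obtain ⟨M, rfl⟩ := hqN
  have hqM : ¬ q ∣ M := by
    rintro ⟨k, rfl⟩
    exact hcond.sq_not_dvd hq ⟨k, by ring⟩
  refine ⟨M, Dvd.intro_left q rfl, hqM, ?_⟩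
  by_contra hnot
  have hyp : Hyp2 P M q :=
    { cond := by rw [mul_comm]; exact hcond
      hq := hq, hq2 := hq2, hqp := hqp, hirr := hirr
      hmod := by rw [mul_comm]; exact hmod
      hunr := hunr, hnot := hnot }
  exact Deform2.false_of_data (hD P M q hyp).some

theorem result_of_deform2' (h44 : NodeS44) (hD : NodeDeform2')
    (P : FreyPackage) {N q : ℕ} (hcond : P.IsConductorLevel N) (hq : q.Prime) (hq2 : q ≠ 2)
    (hqp : q ≠ P.p) (hqN : q ∣ N)
    (hirr : GaloisRepIsIrreducible (K := AlgebraicClosure ℚ) ℚ P.freyCurve P.p)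
    (hmod : P.ModularRepOfLevel N) (hunr : P.GaloisRepUnramifiedAt q) :
    ∃ M : ℕ, M ∣ N ∧ ¬ q ∣ M ∧ P.ModularRepOfLevel M :=
  result_of_nodes h44 (fun P M q hyp => (Deform2.false_of_data (hD P M q hyp).some).elim)
    P hcond hq hq2 hqp hqN hirr hmod hunr

end Fermat.Agent.S43
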