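/-
Row 37 (S43), abstract core, MODULE VERSION (helper143).  Mathlib only.

No element `g` of the Hecke algebra with `T g = β - α - κ α Nm` is needed, i.e. NO (F1), no
`q`-expansion duality, no (K1), no forms at level `Γ_H`, no hypothesis `p ∤ N`.
What replaces it: the Galois group `G` acts on `W` (level `Γ_H`) with a CENTRAL trace
  `ρ g + d g • ρ g⁻¹ = t g ∈ R`        (Eichler-Shimura with diamonds + Frobenius density),
`R` the commutative Hecke algebra, `d g = ε_p(g) ⟨ε_q(g)⟩`.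

Division of `γ = β - α - κ α Nm` by `T` is done POINTWISE: `γ` kills `W0 = W / T W`, so for every `x`
there is `h` with `T h = γ x`; `Y(x, h) = (φ - α) x - (σ - 1) h` is killed by `T` and by `σ - 1`, so it is
`inc z` with `z ∈ ker N₀ = im N₀`.  The polarised Cayley-Hamilton identity gives, for all `g`,
  `Y(g x, g h) + g Y(x, h) - t(g) Y(x, h) + κ α Nm (t(g) - g) x = (t(g φ) - α t(g)) x - (t(g σ) - t(g)) h`
whose right hand side is `G`-equivariant in `(x, h)`.  Hence on every `G`-quotient `V` of `W0` on which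
`σ` acts trivially, `κ α (t(g) - g)` commutes with `G`:  `G` ACTS COMMUTATIVELY ON `V`.
For `V = W0 / m W0` (a sum of copies of `ρ̄`, unramified at `q`) this contradicts the irreducibility.
-/
import Mathlib

set_option autoImplicit false

namespace Fermat.Agent.S43.ModCore

open Finset

variable {R W G : Type*} [CommRing R] [AddCommGroup W] [Module R W] [Group G]

/-- The norm element `∑_{k < P} (1 + T) ^ k`. -/
def Nm (T : R) (P : ℕ) : R := ∑ k ∈ range P, (1 + T) ^ k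

theorem T_mul_Nm (T : R) (P : ℕ) (hδ : (1 + T) ^ P = 1) : T * Nm T P = 0 := by
  have h := Commute.geom_sum₂_mul (Commute.one_right (1 + T)) P
  simp only [one_pow, mul_one] at h
  have h2 : (∑ k ∈ range P, (1 + T) ^ k) * T = 0 := by
    have e : (1 + T) - 1 = T := by ring
    rw [e] at h
    rw [h, hδ, sub_self]
  rw [Nm, mul_comm]
  exact h2

theorem sum_pow_eq (T : R) (P κ : ℕ) (hδ : (1 + T) ^ P = 1) :
    ∑ k ∈ range (1 + κ * P), (1 + T) ^ k = 1 + κ * Nm T P := by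
  induction κ with
  | zero => simp
  | succ n ih =>
    have e : 1 + (n + 1) * P = (1 + n * P) + P := by ring
    rw [e, sum_range_add, ih]
    have h2 : ∀ k ∈ range P, (1 + T) ^ (1 + n * P + k) = (1 + T) * (1 + T) ^ k := by
      intro k _
      rw [pow_add, pow_add, pow_one, mul_comm n P, pow_mul, hδ, one_pow, mul_one]
    rw [sum_congr rfl h2, ← mul_sum]
    have h3 : (1 + T) * ∑ k ∈ range P, (1 + T) ^ k = Nm T P := by
      have := T_mul_Nm T P hδ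
      rw [Nm] at this ⊢
      linear_combination this
    rw [h3]
    push_cast
    ring

/-- The data at level `Γ_H` (module version: no `g`). -/
structure Data (R W G : Type*) [CommRing R] [AddCommGroup W] [Module R W] [Group G] where
  T : R
  α : R
  β : R
  P : ℕ
  κ : ℕ
  /-- the Galois action -/
  ρ : G →* Module.End R W
  /-- the determinant `ε_p(g) ⟨ε_q(g)⟩` -/
  d : G →* R
  /-- the trace -/
  t : G → R
  /-- a generator of tame inertia at `q`, a Frobenius at `q` fixing `μ_q` -/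
  σ : G
  φ : G
  A : Submodule R W
  hδ : (1 + T) ^ P = 1
  /-- Cayley-Hamilton with central trace -/
  ht : ∀ g w, ρ g w + d g • ρ g⁻¹ w = t g • w
  dσ : d σ = 1 + T
  dφ : d φ = α * β
  comm : ∀ w, ρ φ (ρ σ w) = ((ρ σ) ^ (1 + κ * P)) (ρ φ w)
  Sg_sub : ∀ w, ρ σ w - w ∈ A
  Ph_sub : ∀ w, ρ φ w - α • w ∈ A
  Sg_A : ∀ x ∈ A, ρ σ x = (1 + T) • x
  Ph_A : ∀ x ∈ A, ρ φ x = β • x

namespace Data

variable (D : Data R W G)

/-- `a = σ - 1`. -/
def a : W →ₗ[R] W := D.ρ D.σ - 1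

/-- `b = φ - α`. -/
def b : W →ₗ[R] W := D.ρ D.φ - D.α • 1

/-- `γ = β - α - κ α Nm`. -/
def γ : R := D.β - D.α - D.κ * D.α * Nm D.T D.P

theorem a_apply (w : W) : D.a w = D.ρ D.σ w - w := rfl

theorem b_apply (w : W) : D.b w = D.ρ D.φ w - D.α • w := rfl

theorem a_mem (w : W) : D.a w ∈ D.A := D.Sg_sub w

theorem b_mem (w : W) : D.b w ∈ D.A := D.Ph_sub w

theorem a_of_mem {x : W} (hx : x ∈ D.A) : D.a x = D.T • x := by
  rw [a_apply, D.Sg_A x hx, add_smul, one_smul, add_sub_cancel_left]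

theorem Sg_pow_of_mem (k : ℕ) {x : W} (hx : x ∈ D.A) :
    ((D.ρ D.σ) ^ k) x = (1 + D.T) ^ k • x := by
  induction k with
  | zero => simp
  | succ n ih =>
    rw [pow_succ', Module.End.mul_apply, ih, map_smul, D.Sg_A x hx, smul_smul, pow_succ]

theorem Sg_pow_sub (k : ℕ) (w : W) :
    ((D.ρ D.σ) ^ k) w - w = (∑ i ∈ range k, (1 + D.T) ^ i) • D.a w := by
  induction k with
  | zero => simp
  | succ n ih =>
    have h1 : ((D.ρ D.σ) ^ (n + 1)) w = ((D.ρ D.σ) ^ n) (D.a w) + ((D.ρ D.σ) ^ n) w := by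
      rw [pow_succ, Module.End.mul_apply, a_apply, map_sub, sub_add_cancel]
    rw [h1, D.Sg_pow_of_mem n (D.a_mem w), add_sub_assoc, ih, sum_range_succ, add_smul, add_comm]

/-- **The exact identity** `T (φ - α) = γ (σ - 1)`. -/
theorem T_smul_b (w : W) : D.T • D.b w = D.γ • D.a w := by
  have h1 : D.ρ D.φ (D.a w) = D.β • D.a w := D.Ph_A _ (D.a_mem w)
  have h2 : D.ρ D.φ (D.a w) = ((D.ρ D.σ) ^ (1 + D.κ * D.P)) (D.ρ D.φ w) - D.ρ D.φ w := by
    rw [a_apply, map_sub, D.comm]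
  rw [D.Sg_pow_sub, sum_pow_eq _ _ _ D.hδ] at h2
  have h3 : D.a (D.ρ D.φ w) = D.T • D.b w + D.α • D.a w := by
    have e : D.ρ D.φ w = D.b w + D.α • w := by rw [b_apply, sub_add_cancel]
    rw [e, map_add, map_smul, D.a_of_mem (D.b_mem w)]
  rw [h3, h1] at h2
  have h4 : (D.T * Nm D.T D.P) • D.b w = 0 := by rw [T_mul_Nm _ _ D.hδ, zero_smul]
  have h5 : (1 + (D.κ : R) * Nm D.T D.P) • (D.T • D.b w + D.α • D.a w) =
      D.T • D.b w + (D.κ : R) • ((D.T * Nm D.T D.P) • D.b w) +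
        (D.α + D.κ * D.α * Nm D.T D.P) • D.a w := by
    rw [smul_add, smul_smul, smul_smul, smul_smul, ← add_smul]
    congr 1
    · congr 1
      ring
    · congr 1
      ring
  rw [h5, h4, smul_zero, add_zero] at h2
  rw [γ, sub_smul, sub_smul, h2, add_smul]
  abel

theorem ρ_mul_apply (g h : G) (w : W) : D.ρ (g * h) w = D.ρ g (D.ρ h w) := by
  rw [map_mul, Module.End.mul_apply]

theorem ρ_inv_apply (g : G) (w : W) : D.ρ g⁻¹ (D.ρ g w) = w := by
  rw [← ρ_mul_apply, inv_mul_cancel, map_one, Module.End.one_apply]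

/-- `d g • ρ g⁻¹ = t g - ρ g`. -/
theorem adj (g : G) (w : W) : D.d g • D.ρ g⁻¹ w = D.t g • w - D.ρ g w := by
  rw [← D.ht g w, add_sub_cancel_left]

/-- **Polarised Cayley-Hamilton.** -/
theorem pol (g₁ g₂ : G) (w : W) :
    D.ρ g₁ (D.ρ g₂ w) + D.ρ g₂ (D.ρ g₁ w) =
      D.t g₁ • D.ρ g₂ w + D.t g₂ • D.ρ g₁ w - (D.t g₁ * D.t g₂) • w + D.t (g₂ * g₁) • w := by
  have h1 : D.d (g₂ * g₁) • D.ρ (g₂ * g₁)⁻¹ w = D.t (g₂ * g₁) • w - D.ρ g₂ (D.ρ g₁ w) := by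
    rw [D.adj, ρ_mul_apply]
  have h2 : D.d (g₂ * g₁) • D.ρ (g₂ * g₁)⁻¹ w = D.d g₁ • D.ρ g₁⁻¹ (D.d g₂ • D.ρ g₂⁻¹ w) := by
    rw [mul_inv_rev, ρ_mul_apply, map_mul, map_smul, smul_smul, mul_comm (D.d g₁)]
  rw [h2, D.adj g₂, D.adj g₁, map_sub, map_smul, smul_sub, smul_smul] at h1
  have h3 : D.ρ g₁ (D.ρ g₂ w) + D.ρ g₂ (D.ρ g₁ w) -
      (D.t g₁ • D.ρ g₂ w + D.t g₂ • D.ρ g₁ w - (D.t g₁ * D.t g₂) • w + D.t (g₂ * g₁) • w) =
      ((D.t g₁ * D.t g₂) • w - D.t g₁ • D.ρ g₂ w - (D.t g₂ • D.ρ g₁ w - D.ρ g₁ (D.ρ g₂ w))) -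
        (D.t (g₂ * g₁) • w - D.ρ g₂ (D.ρ g₁ w)) := by abel
  rw [← sub_eq_zero, h3, h1, sub_self]

/-- `t σ = 2 + T` as operators. -/
theorem tσ (w : W) : D.t D.σ • w = (2 + D.T) • w := by
  -- apply `(σ - (1 + T)) (σ - 1) = 0` to `σ⁻¹ w`
  have h1 := D.Sg_A _ (D.a_mem (D.ρ D.σ⁻¹ w))
  have e : D.ρ D.σ (D.ρ D.σ⁻¹ w) = w := by
    rw [← ρ_mul_apply, mul_inv_cancel, map_one, Module.End.one_apply]
  rw [a_apply, e, map_sub, e] at h1
  rw [← D.ht D.σ w, D.dσ]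
  have h2 : D.ρ D.σ w = w + (1 + D.T) • (w - D.ρ D.σ⁻¹ w) := by
    rw [← h1, add_sub_cancel]
  rw [h2, smul_sub, add_smul (2 : R), two_smul, add_smul (1 : R) D.T w, one_smul]
  abel

/-- `t φ = α + β` as operators. -/
theorem tφ (w : W) : D.t D.φ • w = (D.α + D.β) • w := by
  have h1 := D.Ph_A _ (D.b_mem (D.ρ D.φ⁻¹ w))
  have e : D.ρ D.φ (D.ρ D.φ⁻¹ w) = w := by
    rw [← ρ_mul_apply, mul_inv_cancel, map_one, Module.End.one_apply]
  rw [b_apply, e, map_sub, map_smul, e] at h1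
  rw [← D.ht D.φ w, D.dφ]
  have h2 : D.ρ D.φ w = D.α • w + D.β • (w - D.α • D.ρ D.φ⁻¹ w) := by
    rw [← h1, add_sub_cancel]
  rw [h2, smul_sub, smul_smul, add_smul, mul_comm D.β D.α]
  abel

/-- `Y(x, h) = (φ - α) x - (σ - 1) h`. -/
def Y (x h : W) : W := D.b x - D.a h

theorem T_smul_Y {x h : W} (hh : D.T • h = D.γ • x) : D.T • D.Y x h = 0 := by
  rw [Y, smul_sub, D.T_smul_b, ← map_smul, ← map_smul, hh, sub_self]

theorem a_Y {x h : W} (hh : D.T • h = D.γ • x) : D.a (D.Y x h) = 0 := by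
  rw [Y, map_sub, D.a_of_mem (D.b_mem x), D.a_of_mem (D.a_mem h), D.T_smul_b, ← map_smul,
    ← map_smul, hh, sub_self]

/-- **The key identity.** -/
theorem key (g : G) {x h : W} (hh : D.T • h = D.γ • x) :
    D.Y (D.ρ g x) (D.ρ g h) + D.ρ g (D.Y x h) - D.t g • D.Y x h
        + (D.κ * D.α * Nm D.T D.P) • (D.t g • x - D.ρ g x) =
      (D.t (g * D.φ) - D.α * D.t g) • x - (D.t (g * D.σ) - D.t g) • h := by
  have p1 := D.pol D.φ g x
  have p2 := D.pol D.σ g h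
  rw [mul_smul, D.tφ, D.tφ] at p1
  rw [mul_smul, D.tσ, D.tσ] at p2
  -- `(t g - g) (T h - γ x) = 0`
  have h0 : D.t g • (D.T • h) - D.ρ g (D.T • h) = D.t g • (D.γ • x) - D.ρ g (D.γ • x) := by rw [hh]
  simp only [Y, b_apply, a_apply, map_sub, map_smul, γ] at p1 p2 h0 ⊢
  linear_combination (norm := module) p1 - p2 + h0

end Data

/-- **The abstract core, module version.**  `G` acts commutatively on every quotient `V` of `W0` on
which `σ` acts trivially. -/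
theorem core {W0 V : Type*} [AddCommGroup W0] [Module R W0] [AddCommGroup V] [Module R V]
    (D : Data R W G)
    (pr : W →ₗ[R] W0) (inc : W0 →ₗ[R] W)
    (ρ0 : G →* Module.End R W0) (ρV : G →* Module.End R V) (πV : W0 →ₗ[R] V)
    (pr_surj : Function.Surjective pr) (ker_pr : ∀ w, pr w = 0 → ∃ v, w = D.T • v)
    (inc_inj : Function.Injective inc) (range_inc : ∀ w, D.T • w = 0 → ∃ x, inc x = w)
    (inc_pr : ∀ w, inc (pr w) = Nm D.T D.P • w)
    (pr_ρ : ∀ g w, pr (D.ρ g w) = ρ0 g (pr w))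
    (hγ : ∀ x : W0, D.γ • x = 0)
    (hE : ∀ x, ρ0 D.σ x = x → ∃ z, ρ0 D.σ z - z = x)
    (πV_surj : Function.Surjective πV)
    (πV_ρ : ∀ g x, πV (ρ0 g x) = ρV g (πV x))
    (hσV : ∀ v, ρV D.σ v = v)
    (hc : ∀ v : V, ((D.κ : R) * D.α) • v = 0 → v = 0) :
    ∀ g e v, ρV g (ρV e v) = ρV e (ρV g v) := by
  have inc_ρ : ∀ g x, inc (ρ0 g x) = D.ρ g (inc x) := by
    intro g x
    obtain ⟨w, rfl⟩ := pr_surj x
    rw [← pr_ρ, inc_pr, inc_pr, map_smul]
  -- the elements `Y(x, h)` die in `V`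
  have LY : ∀ x h : W, D.T • h = D.γ • x → ∃ z : W0, inc z = D.Y x h ∧ πV z = 0 := by
    intro x h hh
    obtain ⟨z, hz⟩ := range_inc _ (D.T_smul_Y hh)
    refine ⟨z, hz, ?_⟩
    have h1 : ρ0 D.σ z = z := by
      apply inc_inj
      have := D.a_Y hh
      rw [← hz, Data.a_apply, sub_eq_zero] at this
      rw [inc_ρ, this]
    obtain ⟨z', rfl⟩ := hE z h1
    rw [map_sub, πV_ρ, hσV, sub_self]
  have hNm : ∀ u : W, (D.κ * D.α * Nm D.T D.P) • u = inc (((D.κ : R) * D.α) • pr u) := by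
    intro u
    rw [map_smul, inc_pr, smul_smul]
  intro g e v
  obtain ⟨x0, rfl⟩ := πV_surj v
  obtain ⟨w, rfl⟩ := pr_surj x0
  obtain ⟨h, hh'⟩ := ker_pr (D.γ • w) (by rw [map_smul, hγ])
  have hh : D.T • h = D.γ • w := hh'.symm
  have hρ : ∀ (k : G) {x y : W}, D.T • y = D.γ • x → D.T • D.ρ k y = D.γ • D.ρ k x := by
    intro k x y hxy
    rw [← map_smul, hxy, map_smul]
  have K1 := D.key g hh
  have K2 := D.key g (hρ e hh)
  obtain ⟨z1, hz1, hv1⟩ := LY _ _ (hρ g hh)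
  obtain ⟨z2, hz2, hv2⟩ := LY _ _ hh
  obtain ⟨z3, hz3, hv3⟩ := LY _ _ (hρ g (hρ e hh))
  obtain ⟨z4, hz4, hv4⟩ := LY _ _ (hρ e hh)
  have R12 : (D.t (g * D.φ) - D.α * D.t g) • D.ρ e w - (D.t (g * D.σ) - D.t g) • D.ρ e h =
      D.ρ e ((D.t (g * D.φ) - D.α * D.t g) • w - (D.t (g * D.σ) - D.t g) • h) := by
    rw [map_sub, map_smul, map_smul]
  have hlast : ∀ u : W, inc (((D.κ : R) * D.α) • (D.t g • pr u - ρ0 g (pr u))) =
      (D.κ * D.α * Nm D.T D.P) • (D.t g • u - D.ρ g u) := by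
    intro u
    rw [hNm, map_sub pr, map_smul pr, pr_ρ]
  have E1 : inc (z1 + ρ0 g z2 - D.t g • z2 + ((D.κ : R) * D.α) • (D.t g • pr w - ρ0 g (pr w))) =
      D.Y (D.ρ g w) (D.ρ g h) + D.ρ g (D.Y w h) - D.t g • D.Y w h
        + (D.κ * D.α * Nm D.T D.P) • (D.t g • w - D.ρ g w) := by
    rw [map_add, map_sub, map_add, map_smul inc, inc_ρ, hz1, hz2, hlast]
  have E2 : inc (z3 + ρ0 g z4 - D.t g • z4 +
        ((D.κ : R) * D.α) • (D.t g • pr (D.ρ e w) - ρ0 g (pr (D.ρ e w)))) =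
      D.Y (D.ρ g (D.ρ e w)) (D.ρ g (D.ρ e h)) + D.ρ g (D.Y (D.ρ e w) (D.ρ e h))
        - D.t g • D.Y (D.ρ e w) (D.ρ e h)
        + (D.κ * D.α * Nm D.T D.P) • (D.t g • D.ρ e w - D.ρ g (D.ρ e w)) := by
    rw [map_add, map_sub, map_add, map_smul inc, inc_ρ, hz3, hz4, hlast]
  rw [R12, ← K1, ← E1, ← E2, ← inc_ρ] at K2
  have K3 := congrArg πV (inc_inj K2)
  simp only [map_add, map_sub, map_smul, πV_ρ, pr_ρ, hv1, hv2, hv3, hv4, map_zero, smul_zero,
    add_zero, sub_zero, zero_add] at K3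
  have K4 : ((D.κ : R) * D.α) • (ρV e (ρV g (πV (pr w))) - ρV g (ρV e (πV (pr w)))) = 0 := by
    linear_combination (norm := module) K3
  exact (sub_eq_zero.mp (hc _ K4)).symm

end Fermat.Agent.S43.ModCore
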