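/-
Row 37 (S43), chief helper1.  SECOND LAYER: `NodeData` from the deformation core.
-/
import Fermat.Agent.S43.Top
import Fermat.Agent.S43.Deform.Defs

set_option autoImplicit false

namespace Fermat.Agent.S43

/-- **Node DEFORM**: the geometric/modular input, in abstract form. -/
def NodeDeform : Prop :=
  ∀ (P : FreyPackage) (M q : ℕ), Hyp P M q → Nonempty (Deform.Data P.p)

theorem nodeData_of (hC : Deform.NodeCore) (hD : NodeDeform) : NodeData :=
  fun P M q h => hC P.p (hD P M q h).some

end Fermat.Agent.S43
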